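import Fermat.Agent.SelbergCLT.Kernel
import Fermat.Agent.LiCriterion.Partial

/-!
# Cutoffs with transforms of any given decay

`gPow N w = (sinh (w / N) / (w / N)) ^ N` is entire, `1` at `0` and
`O (e^|re w| (1 + |im w|) ^ -N)`; the cutoff `(2πi)⁻¹ ∫ e^(-b w) gPow N w / w` is `1` for
`b ≤ -1`, `0` for `b ≥ 1`, and bounded.
-/

set_option autoImplicit false

noncomputable section

namespace FA.PiltzMoment

open Complex Filter MeasureTheory Set
open FA.SelbergCLT (decay decay_nonneg decay_le_one integrable_decay integrable_of_decay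
  norm_dslope_sinh_mul_le verticals_of_boxInt line_ne_zero eq_zero_of_norm_le_div)
open FA.ExplicitFormula (boxInt boxInt_eq_zero boxInt_residue)
open scoped Topology Real

/-- `(sinh (w / N) / (w / N)) ^ N`. -/
def gPow (N : ℕ) (w : ℂ) : ℂ := dslope Complex.sinh 0 (w / N) ^ N

theorem differentiable_gPow (N : ℕ) : Differentiable ℂ (gPow N) := by
  have h : Differentiable ℂ (dslope Complex.sinh 0) := differentiableOn_univ.1
    ((differentiableOn_dslope univ_mem).2 Complex.differentiable_sinh.differentiableOn)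
  exact (h.comp (differentiable_id.div_const _)).pow _

theorem gPow_zero (N : ℕ) : gPow N 0 = 1 := by
  simp [gPow, dslope_same]

/-- The constant in the bound for `gPow`. -/
def powConst (N : ℕ) : ℝ := (2 * N : ℝ) ^ N

theorem powConst_nonneg (N : ℕ) : 0 ≤ powConst N := by
  unfold powConst
  positivity

theorem norm_gPow_le {N : ℕ} (hN : 1 ≤ N) (w : ℂ) :
    ‖gPow N w‖ ≤ powConst N * Real.exp |w.re| * decay N w.im := by
  have hN0 : (0 : ℝ) < N := Nat.cast_pos.2 hN
  have hN1 : (1 : ℝ) ≤ N := Nat.one_le_cast.2 hN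
  rw [decay, ← div_eq_mul_inv, le_div_iff₀ (by positivity), powConst, gPow, norm_pow, ← mul_pow,
    show Real.exp |w.re| = Real.exp |(w / (N : ℂ)).re| ^ N by
      rw [← Real.exp_nat_mul, div_natCast_re, abs_div, abs_of_pos hN0, mul_div_cancel₀ _ hN0.ne'],
    ← mul_pow]
  refine pow_le_pow_left₀ (by positivity) ?_ N
  refine le_trans (mul_le_mul_of_nonneg_left
    (show 1 + |w.im| ≤ N * (1 + |(w / (N : ℂ)).im|) by
      rw [div_natCast_im, abs_div, abs_of_pos hN0, mul_add, mul_one, mul_div_cancel₀ _ hN0.ne']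
      linarith) (norm_nonneg _)) ?_
  rw [mul_left_comm]
  refine (mul_le_mul_of_nonneg_left (norm_dslope_sinh_mul_le _) hN0.le).trans (le_of_eq ?_)
  ring

/-- `e^(-b w) gPow N w / w` on `re w = u`. -/
def powKern (N : ℕ) (u b v : ℝ) : ℂ :=
  cexp (-(b : ℂ) * ((u : ℂ) + (v : ℂ) * I)) * gPow N ((u : ℂ) + (v : ℂ) * I) /
    ((u : ℂ) + (v : ℂ) * I)

/-- The cutoff. -/
def powCut (N : ℕ) (b : ℝ) : ℂ := (2 * π : ℂ)⁻¹ * ∫ v, powKern N 1 b v

variable {N : ℕ}

theorem norm_gPow_line_le (hN : 1 ≤ N) (u v : ℝ) :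
    ‖gPow N ((u : ℂ) + (v : ℂ) * I)‖ ≤ powConst N * Real.exp |u| * decay N v := by
  simpa using norm_gPow_le hN ((u : ℂ) + (v : ℂ) * I)

theorem norm_powKern_le (hN : 1 ≤ N) {u : ℝ} (hu : u ≠ 0) (b v : ℝ) :
    ‖powKern N u b v‖ ≤ Real.exp (-b * u + |u|) * powConst N / |u| * decay N v := by
  have hw : |u| ≤ ‖(u : ℂ) + (v : ℂ) * I‖ := by
    simpa using abs_re_le_norm ((u : ℂ) + (v : ℂ) * I)
  rw [powKern, norm_div, norm_mul, Complex.norm_exp]
  refine (div_le_div₀ ?_ (mul_le_mul_of_nonneg_left (norm_gPow_line_le hN u v)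
    (Real.exp_pos _).le) (abs_pos.2 hu) hw).trans (le_of_eq ?_)
  · exact mul_nonneg (Real.exp_pos _).le (mul_nonneg (mul_nonneg (powConst_nonneg N)
      (Real.exp_pos _).le) (decay_nonneg _ _))
  rw [Real.exp_add, show (-(b : ℂ) * ((u : ℂ) + (v : ℂ) * I)).re = -b * u by simp]
  ring

theorem integrable_powKern (hN : 2 ≤ N) {u : ℝ} (hu : u ≠ 0) (b : ℝ) :
    Integrable (powKern N u b) :=
  integrable_of_decay hN (((by fun_prop : Continuous fun v : ℝ =>
      cexp (-(b : ℂ) * ((u : ℂ) + (v : ℂ) * I))).mul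
    ((differentiable_gPow N).continuous.comp (by fun_prop))).div (by fun_prop) (line_ne_zero hu))
    (norm_powKern_le (by omega) hu b)

theorem integral_powKern_sub (hN : 2 ≤ N) {a c : ℝ} (ha : a ≠ 0) (hc : c ≠ 0) (hac : a ≤ c)
    (b : ℝ) : (∫ v, powKern N c b v) - (∫ v, powKern N a b v) =
      if a < 0 ∧ 0 < c then (2 * π : ℂ) else 0 := by
  obtain ⟨F, hF⟩ : ∃ F : ℂ → ℂ, F = fun w => cexp (-(b : ℂ) * w) * gPow N w / w := ⟨_, rfl⟩
  have hk : ∀ u v : ℝ, powKern N u b v = F ((u : ℂ) + (v : ℂ) * I) := fun u v => by rw [hF]; rfl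
  have hφ : Differentiable ℂ fun w => cexp (-(b : ℂ) * w) * gPow N w :=
    (by fun_prop : Differentiable ℂ fun w : ℂ => cexp (-(b : ℂ) * w)).mul (differentiable_gPow N)
  have hbox : ∀ R : ℝ, 0 < R →
      boxInt F a c R = I * if a < 0 ∧ 0 < c then (2 * π : ℂ) else 0 := fun R hR => by
    rw [hF]
    split_ifs with h
    · have := boxInt_residue (φ := fun w => cexp (-(b : ℂ) * w) * gPow N w) isOpen_univ
        hφ.differentiableOn (fun s _ _ => mem_univ s) hR.le (ρ := 0) (by simpa using h.1)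
        (by simpa using h.2) (by simpa using hR.ne)
      simp only [sub_zero, zero_im, abs_zero, hR, if_true, mul_zero, Complex.exp_zero, gPow_zero,
        mul_one] at this
      rw [this]
      ring
    · rw [mul_zero]
      refine boxInt_eq_zero hac hR.le fun s h1 _ => (hφ s).div differentiableAt_id fun h0 => h ?_
      rw [h0, zero_re] at h1
      exact ⟨lt_of_le_of_ne h1.1 ha, lt_of_le_of_ne h1.2 hc.symm⟩
  obtain ⟨D, hD⟩ : ∃ D, D = Real.exp ((|b| + 1) * (|a| + |c|)) * powConst N := ⟨_, rfl⟩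
  have hh : ∀ᶠ R in atTop, ∀ u ∈ uIcc a c,
      ‖F ((u : ℂ) + ((-R : ℝ) : ℂ) * I)‖ ≤ D / R ∧ ‖F ((u : ℂ) + (R : ℂ) * I)‖ ≤ D / R := by
    filter_upwards [eventually_gt_atTop 0] with R hR u hu
    have hbd : ∀ v : ℝ, |v| = R → ‖F ((u : ℂ) + (v : ℂ) * I)‖ ≤ D / R := fun v hv => by
      have hw : R ≤ ‖(u : ℂ) + (v : ℂ) * I‖ := by
        simpa [hv] using abs_im_le_norm ((u : ℂ) + (v : ℂ) * I)
      rw [hF, norm_div, norm_mul, Complex.norm_exp,
        show (-(b : ℂ) * ((u : ℂ) + (v : ℂ) * I)).re = -(b * u) by simp]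
      refine div_le_div₀ (hD ▸ mul_nonneg (Real.exp_pos _).le (powConst_nonneg N))
        ((mul_le_mul_of_nonneg_left ((norm_gPow_line_le (by omega) u v).trans
          (mul_le_of_le_one_right (mul_nonneg (powConst_nonneg N) (Real.exp_pos _).le)
            (decay_le_one _ _))) (Real.exp_pos _).le).trans ?_) hR hw
      rw [hD, mul_left_comm, mul_comm _ (powConst N), ← Real.exp_add]
      refine mul_le_mul_of_nonneg_left (Real.exp_le_exp.2 ?_) (powConst_nonneg N)
      rw [uIcc_of_le hac] at hu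
      have hu1 : |u| ≤ |a| + |c| :=
        (abs_le_max_abs_abs hu.1 hu.2).trans (max_le_add_of_nonneg (abs_nonneg _) (abs_nonneg _))
      have h1 := neg_le_abs (b * u)
      rw [abs_mul] at h1
      nlinarith [mul_le_mul_of_nonneg_left hu1 (abs_nonneg b)]
    exact ⟨hbd _ (by rw [abs_neg, abs_of_pos hR]), hbd _ (abs_of_pos hR)⟩
  have h := verticals_of_boxInt (F := F) (by simpa only [← hk] using integrable_powKern hN ha b)
    (by simpa only [← hk] using integrable_powKern hN hc b)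
    ((eventually_gt_atTop 0).mono hbox) (tendsto_const_nhds.div_atTop tendsto_id) hh
  simp only [← hk] at h
  exact mul_left_cancel₀ I_ne_zero h

/-- The cutoff may be taken on any line to the right. -/
theorem powCut_eq (hN : 2 ≤ N) {u : ℝ} (hu : 0 < u) (b : ℝ) :
    powCut N b = (2 * π : ℂ)⁻¹ * ∫ v, powKern N u b v := by
  rw [powCut]
  congr 1
  rcases le_total u 1 with h | h
  · have := integral_powKern_sub hN hu.ne' one_ne_zero h b
    rwa [if_neg (fun hc => absurd hc.1 (by linarith)), sub_eq_zero] at this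
  · have := integral_powKern_sub hN one_ne_zero hu.ne' h b
    rw [if_neg (fun hc => absurd hc.1 (by norm_num)), sub_eq_zero] at this
    exact this.symm

theorem norm_integral_powKern_le (hN : 2 ≤ N) {u : ℝ} (hu : u ≠ 0) (b : ℝ) :
    ‖∫ v, powKern N u b v‖ ≤
      Real.exp (-b * u + |u|) * powConst N / |u| * ∫ v, decay N v := by
  rw [← integral_const_mul]
  exact norm_integral_le_of_norm_le ((integrable_decay hN).const_mul _)
    (Eventually.of_forall (norm_powKern_le (by omega) hu b))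

theorem norm_integral_powKern_le_div (hN : 2 ≤ N) {u b : ℝ} (hu : u ≠ 0)
    (h : -b * u + |u| ≤ 0) :
    ‖∫ v, powKern N u b v‖ ≤ powConst N * (∫ v, decay N v) / |u| := by
  refine (norm_integral_powKern_le hN hu b).trans ?_
  rw [div_mul_eq_mul_div, mul_assoc]
  exact div_le_div_of_nonneg_right (mul_le_of_le_one_left (mul_nonneg (powConst_nonneg N)
    (integral_nonneg fun v => decay_nonneg _ v)) (Real.exp_le_one_iff.2 h)) (abs_nonneg u)

theorem powCut_eq_zero (hN : 2 ≤ N) {b : ℝ} (hb : 1 ≤ b) : powCut N b = 0 := by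
  suffices h : (∫ v, powKern N 1 b v) = 0 by rw [powCut, h, mul_zero]
  refine eq_zero_of_norm_le_div (C := powConst N * ∫ v, decay N v) fun u hu => ?_
  have hu0 : (0 : ℝ) < u := by linarith
  have e := integral_powKern_sub hN one_ne_zero hu0.ne' hu b
  rw [if_neg (fun hc => absurd hc.1 (by norm_num)), sub_eq_zero] at e
  rw [← e]
  refine (norm_integral_powKern_le_div hN hu0.ne' ?_).trans (le_of_eq (by rw [abs_of_pos hu0]))
  rw [abs_of_pos hu0]
  nlinarith

theorem powCut_eq_one (hN : 2 ≤ N) {b : ℝ} (hb : b ≤ -1) : powCut N b = 1 := by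
  suffices h : (∫ v, powKern N 1 b v) - (2 * π : ℂ) = 0 by
    rw [powCut, sub_eq_zero.1 h, inv_mul_cancel₀
      (mul_ne_zero two_ne_zero (ofReal_ne_zero.2 Real.pi_ne_zero))]
  refine eq_zero_of_norm_le_div (C := powConst N * ∫ v, decay N v) fun u hu => ?_
  have hu0 : -u < (0 : ℝ) := by linarith
  have e := integral_powKern_sub hN hu0.ne one_ne_zero (by linarith) b
  rw [if_pos ⟨hu0, one_pos⟩] at e
  rw [← e, sub_sub_cancel]
  have hau : |(-u)| = u := by rw [abs_neg, abs_of_pos (by linarith)]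
  refine (norm_integral_powKern_le_div hN hu0.ne ?_).trans (le_of_eq (by rw [hau]))
  rw [hau]
  nlinarith

theorem exists_powCut_le (hN : 2 ≤ N) : ∃ B, 0 ≤ B ∧ ∀ b : ℝ, ‖powCut N b‖ ≤ B := by
  obtain ⟨B, hB⟩ : ∃ B, B = Real.exp 2 * powConst N * ∫ v, decay N v := ⟨_, rfl⟩
  have hB0 : 0 ≤ B := hB ▸ mul_nonneg (mul_nonneg (Real.exp_pos _).le (powConst_nonneg N))
    (integral_nonneg fun v => decay_nonneg _ v)
  refine ⟨B + 1, by positivity, fun b => ?_⟩
  rcases le_or_gt b (-1) with h | h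
  · rw [powCut_eq_one hN h, norm_one]
    linarith
  refine le_add_of_le_of_nonneg ?_ zero_le_one
  rw [powCut, norm_mul]
  refine (mul_le_of_le_one_left (norm_nonneg _) ?_).trans
    ((norm_integral_powKern_le hN one_ne_zero b).trans ?_)
  · rw [norm_inv, norm_mul, Complex.norm_two, Complex.norm_real,
      Real.norm_of_nonneg Real.pi_pos.le]
    exact inv_le_one_of_one_le₀ (by linarith [Real.pi_gt_three])
  · rw [hB, abs_one, div_one]
    have h0 : 0 ≤ ∫ v, decay N v := integral_nonneg fun v => decay_nonneg _ v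
    have := powConst_nonneg N
    gcongr
    linarith

/-- A rectangle may be lengthened where the function is regular. -/
theorem boxInt_of_le {F : ℂ → ℂ} {a b T₀ T : ℝ} (hab : a ≤ b) (h0 : 0 ≤ T₀) (hT : T₀ ≤ T)
    (hc : ∀ v : ℝ, ContinuousAt F ((a : ℂ) + (v : ℂ) * I) ∧ ContinuousAt F ((b : ℂ) + (v : ℂ) * I))
    (hF : ∀ s : ℂ, s.re ∈ Icc a b → T₀ ≤ |s.im| → DifferentiableAt ℂ F s) :
    boxInt F a b T = boxInt F a b T₀ := by
  have rect : ∀ l r : ℝ, l ≤ r → (∀ y ∈ Icc l r, T₀ ≤ |y|) →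
      (∫ u in a..b, F ((u : ℂ) + (l : ℂ) * I)) - (∫ u in a..b, F ((u : ℂ) + (r : ℂ) * I)) +
        I * (∫ y in l..r, F ((b : ℂ) + (y : ℂ) * I)) -
        I * (∫ y in l..r, F ((a : ℂ) + (y : ℂ) * I)) = 0 := fun l r hlr hy => by
    have h := Complex.integral_boundary_rect_eq_zero_of_differentiableOn F
      ((a : ℂ) + (l : ℂ) * I) ((b : ℂ) + (r : ℂ) * I) (fun s hs => by
        rw [Complex.mem_reProdIm] at hs
        simp only [add_re, ofReal_re, mul_re, I_re, mul_zero, ofReal_im, I_im, mul_one, sub_self,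
          add_zero, add_im, mul_im, zero_add, uIcc_of_le hab, uIcc_of_le hlr] at hs
        exact (hF s hs.1 (hy _ hs.2)).differentiableWithinAt)
    simp only [add_re, ofReal_re, mul_re, I_re, mul_zero, ofReal_im, I_im, mul_one, sub_self,
      add_zero, add_im, mul_im, zero_add, smul_eq_mul] at h
    linear_combination h
  have hi : ∀ c : ℝ, (∀ v : ℝ, ContinuousAt F ((c : ℂ) + (v : ℂ) * I)) → ∀ l r : ℝ,
      IntervalIntegrable (fun y : ℝ => F ((c : ℂ) + (y : ℂ) * I)) volume l r := fun c h l r =>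
    (continuous_iff_continuousAt.2 fun v => ContinuousAt.comp' (g := F)
      (f := fun y : ℝ => (c : ℂ) + (y : ℂ) * I) (h v) (by fun_prop)).intervalIntegrable l r
  have split : ∀ c : ℝ, (∀ v : ℝ, ContinuousAt F ((c : ℂ) + (v : ℂ) * I)) →
      (∫ y in (-T)..T, F ((c : ℂ) + (y : ℂ) * I)) =
        (∫ y in (-T)..(-T₀), F ((c : ℂ) + (y : ℂ) * I)) +
          (∫ y in (-T₀)..T₀, F ((c : ℂ) + (y : ℂ) * I)) +
          ∫ y in T₀..T, F ((c : ℂ) + (y : ℂ) * I) := fun c h => by
    rw [intervalIntegral.integral_add_adjacent_intervals (hi c h _ _) (hi c h _ _),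
      intervalIntegral.integral_add_adjacent_intervals (hi c h _ _) (hi c h _ _)]
  have r1 := rect (-T) (-T₀) (by linarith) fun y hy => by
    rw [abs_of_nonpos (by linarith [hy.2])]; linarith [hy.2]
  have r2 := rect T₀ T hT fun y hy => by
    rw [abs_of_nonneg (by linarith [hy.1])]; exact hy.1
  simp only [boxInt]
  rw [split a fun v => (hc v).1, split b fun v => (hc v).2]
  linear_combination r1 + r2

end FA.PiltzMoment

end
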