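import Fermat.Agent.PiltzMoment.Cutoff
import Fermat.Agent.PiltzDivisor.Basic
import Fermat.Agent.Forms3.RepresentationBound

/-!
# The smoothed sum of `d_k`

On `re s = 2` the integral of `ζ (s) ^ k x ^ s gPow N (δ s) / s` is the sum of `d_k n` against the
cutoff at `(log n - log x) / δ`; this differs from `∑_{n ≤ x} d_k n` by `O (x ^ ε (δ x + 1))`.
-/

set_option autoImplicit false

noncomputable section

namespace FA.PiltzMoment

open Complex MeasureTheory Filter Finset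
open FA.PiltzDivisor (piltz piltzSum piltz_nonneg lseries_piltz)
open FA.SelbergCLT (decay decay_nonneg integrable_decay line_ne_zero)
open scoped Topology Real ArithmeticFunction.zeta

/-- `ζ (s) ^ k x ^ s gPow N (δ s) / s`. -/
def piltzKer (k N : ℕ) (δ x : ℝ) (s : ℂ) : ℂ :=
  riemannZeta s ^ k * (x : ℂ) ^ s * gPow N ((δ : ℂ) * s) / s

theorem exists_piltz_le (k : ℕ) {ε : ℝ} (hε : 0 < ε) :
    ∃ C, 0 ≤ C ∧ ∀ n : ℕ, piltz k n ≤ C * (n : ℝ) ^ ε := by
  have hcard : ∀ (j n : ℕ), n ≠ 0 → (ζ ^ j : ArithmeticFunction ℕ) n ≤ n.divisors.card ^ j := by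
    intro j
    induction j with
    | zero =>
      intro n _
      simp only [pow_zero, ArithmeticFunction.one_apply]
      split_ifs <;> simp
    | succ j ih =>
      intro n hn
      rw [pow_succ, ArithmeticFunction.mul_zeta_apply, pow_succ']
      refine (sum_le_card_nsmul _ _ (n.divisors.card ^ j) fun d hd => ?_).trans (le_of_eq
        (smul_eq_mul _ _))
      have hd' := Nat.mem_divisors.1 hd
      exact (ih d (ne_zero_of_dvd_ne_zero hn hd'.1)).trans
        (Nat.pow_le_pow_left (card_le_card (Nat.divisors_subset_of_dvd hn hd'.1)) j)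
  obtain ⟨C, hC, hd⟩ := FA.RepresentationBound.card_divisors_isBigO (ε / (k + 1)) (by positivity)
  refine ⟨C ^ k, by positivity, fun n => ?_⟩
  rcases eq_or_ne n 0 with rfl | hn
  · rw [piltz, ArithmeticFunction.map_zero]
    push_cast
    positivity
  refine (show piltz k n ≤ (n.divisors.card : ℝ) ^ k by
    rw [piltz]; exact_mod_cast hcard k n hn).trans ?_
  refine (pow_le_pow_left₀ (Nat.cast_nonneg _) (hd n hn) k).trans ?_
  rw [mul_pow, ← Real.rpow_mul_natCast (Nat.cast_nonneg n)]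
  refine mul_le_mul_of_nonneg_left (Real.rpow_le_rpow_of_exponent_le (Nat.one_le_cast.2
    (Nat.one_le_iff_ne_zero.2 hn)) ?_) (by positivity)
  rw [div_mul_eq_mul_div, div_le_iff₀ (by positivity)]
  linarith

/-- The position of `n` against `x` on the scale `δ`. -/
def cutPos (δ x : ℝ) (n : ℕ) : ℝ := (Real.log n - Real.log x) / δ

theorem one_le_cutPos {δ x : ℝ} (hδ : 0 < δ) (hx : 0 < x) {n : ℕ} (hn : x * Real.exp δ ≤ n) :
    1 ≤ cutPos δ x n := by
  have h := Real.log_le_log (by positivity) hn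
  rw [Real.log_mul hx.ne' (Real.exp_pos δ).ne', Real.log_exp] at h
  rw [cutPos, le_div_iff₀ hδ]
  linarith

theorem cutPos_le {δ x : ℝ} (hδ : 0 < δ) (hx : 0 < x) {n : ℕ} (hn0 : 1 ≤ n)
    (hn : (n : ℝ) ≤ x * Real.exp (-δ)) : cutPos δ x n ≤ -1 := by
  have h := Real.log_le_log (Nat.cast_pos.2 hn0) hn
  rw [Real.log_mul hx.ne' (Real.exp_pos _).ne', Real.log_exp] at h
  rw [cutPos, div_le_iff₀ hδ]
  linarith

/-- The cut sum. -/
def cutSum (k N : ℕ) (δ x : ℝ) : ℂ := ∑' n : ℕ, (piltz k n : ℂ) * powCut N (cutPos δ x n)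

/-- **The smoothed sum on the line `re s = 2`.** -/
theorem integral_piltzKer_two {k N : ℕ} (hN : 2 ≤ N) {δ x : ℝ} (hδ : 0 < δ)
    (hx : 0 < x) :
    ∫ v : ℝ, piltzKer k N δ x (((2 : ℝ) : ℂ) + (v : ℂ) * I) = 2 * π * cutSum k N δ x := by
  obtain ⟨w, hw⟩ : ∃ w : ℝ → ℂ, w = fun v : ℝ => ((2 : ℝ) : ℂ) + (v : ℂ) * I := ⟨_, rfl⟩
  have hwre : ∀ v, (w v).re = 2 := fun v => by simp [hw]
  have hw0 : ∀ v, w v ≠ 0 := fun v h => by simpa [h] using hwre v
  have hwc : Continuous w := hw ▸ (by fun_prop)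
  obtain ⟨f, hf⟩ : ∃ f : ℕ → ℂ, f = fun n => (piltz k n : ℂ) := ⟨_, rfl⟩
  obtain ⟨G, hG⟩ : ∃ G : ℕ → ℝ → ℂ, G = fun n v =>
      LSeries.term f (w v) n * ((x : ℂ) ^ w v * gPow N ((δ : ℂ) * w v) / w v) := ⟨_, rfl⟩
  obtain ⟨D, hD⟩ : ∃ D : ℝ → ℝ,
      D = fun v => x ^ (2 : ℝ) * (powConst N * Real.exp (2 * δ)) * decay N (δ * v) := ⟨_, rfl⟩
  have hDi : Integrable D := hD ▸ (((integrable_decay hN).comp_mul_left' hδ.ne').const_mul _)
  obtain ⟨T, hT⟩ : ∃ T : ℕ → ℝ, T = fun n => ‖LSeries.term f ((2 : ℝ) : ℂ) n‖ := ⟨_, rfl⟩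
  have hGb : ∀ n v, ‖G n v‖ ≤ T n * D v := fun n v => by
    simp only [hG, norm_mul, norm_div]
    refine mul_le_mul (le_of_eq ?_) ?_ (by positivity) (hT ▸ norm_nonneg _)
    · simp only [hT, LSeries.norm_term_eq, hwre, ofReal_re]
    · simp only [hD]
      rw [norm_cpow_eq_rpow_re_of_pos hx, hwre]
      refine (div_le_self (by positivity) ?_).trans (le_of_eq_of_le rfl ?_)
      · calc (1 : ℝ) ≤ (w v).re := by rw [hwre]; norm_num
          _ ≤ _ := re_le_norm _
      · rw [mul_assoc]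
        refine mul_le_mul_of_nonneg_left ?_ (by positivity)
        refine (norm_gPow_le (by omega) _).trans (le_of_eq ?_)
        rw [re_ofReal_mul, im_ofReal_mul, hwre, abs_of_pos (by positivity : 0 < δ * 2), hw]
        simp [mul_comm δ]
  have hGc : ∀ n, Continuous (G n) := fun n => by
    rw [hG]
    refine Continuous.mul ?_ (((continuous_const.cpow hwc fun v => Or.inl (by simpa using hx)).mul
      ((differentiable_gPow N).continuous.comp (by fun_prop))).div hwc hw0)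
    rcases eq_or_ne n 0 with rfl | hn
    · simpa [LSeries.term_zero] using continuous_const
    simp only [LSeries.term_of_ne_zero hn]
    exact continuous_const.div (continuous_const.cpow hwc fun v => Or.inl (by
      simpa using Nat.pos_of_ne_zero hn)) fun v => cpow_ne_zero_iff.2
      (Or.inl (Nat.cast_ne_zero.2 hn))
  have hGi : ∀ n, Integrable (G n) := fun n => ((hDi.const_mul (T n))).mono'
    (hGc n).aestronglyMeasurable (Eventually.of_forall (hGb n))
  have hS : Summable fun n => ∫ v, ‖G n v‖ := by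
    refine Summable.of_nonneg_of_le (fun n => integral_nonneg fun v => norm_nonneg _) (fun n =>
      (integral_mono (hGi n).norm (hDi.const_mul (T n)) (hGb n)).trans
        (le_of_eq (integral_const_mul _ _))) ?_
    refine Summable.mul_right _ ?_
    rw [hT, hf]
    exact ((lseries_piltz k (s := ((2 : ℝ) : ℂ)) (by norm_num)).1).norm
  have hsum : ∀ v, ∑' n, G n v = piltzKer k N δ x (w v) := fun v => by
    simp only [hG, tsum_mul_right, piltzKer]
    rw [show (∑' n, LSeries.term f (w v) n) = riemannZeta (w v) ^ k from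
      hf ▸ (lseries_piltz k (by rw [hwre]; norm_num)).2]
    ring
  have hint : ∀ n, ∫ v, G n v = 2 * π * ((piltz k n : ℂ) * powCut N (cutPos δ x n)) := fun n => by
    rcases eq_or_ne n 0 with rfl | hn
    · have h0 : piltz k 0 = 0 := by rw [piltz, ArithmeticFunction.map_zero, Nat.cast_zero]
      simp [hG, LSeries.term_zero, h0]
    have hn0 : (0 : ℝ) < n := Nat.cast_pos.2 (Nat.pos_of_ne_zero hn)
    have e : ∀ v, G n v = (piltz k n : ℂ) *
        ((δ : ℂ) * powKern N (δ * 2) (cutPos δ x n) (δ * v)) := fun v => by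
      have hb : (δ : ℂ) * (cutPos δ x n : ℂ) = Complex.log (n : ℂ) - Complex.log (x : ℂ) := by
        rw [← ofReal_mul, cutPos, mul_div_cancel₀ _ hδ.ne', ofReal_sub,
          ofReal_log hn0.le, ofReal_log hx.le, ofReal_natCast]
      have he : ((δ * 2 : ℝ) : ℂ) + ((δ * v : ℝ) : ℂ) * I = (δ : ℂ) * w v := by
        rw [hw]; push_cast; ring
      simp only [hG, powKern, he, LSeries.term_of_ne_zero hn, hf]
      rw [show cexp (-(cutPos δ x n : ℂ) * ((δ : ℂ) * w v)) =
          (x : ℂ) ^ w v / (n : ℂ) ^ w v by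
        rw [cpow_def_of_ne_zero (ofReal_ne_zero.2 hx.ne'),
          cpow_def_of_ne_zero (Nat.cast_ne_zero.2 hn), ← Complex.exp_sub]
        congr 1
        linear_combination (-w v) * hb]
      have := hw0 v
      have : (δ : ℂ) ≠ 0 := ofReal_ne_zero.2 hδ.ne'
      field_simp
    simp only [e, integral_const_mul]
    rw [Measure.integral_comp_mul_left (powKern N (δ * 2) (cutPos δ x n)) δ,
      abs_of_pos (inv_pos.2 hδ), Complex.real_smul, powCut_eq hN (by positivity : 0 < δ * 2)]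
    have : (π : ℂ) ≠ 0 := ofReal_ne_zero.2 Real.pi_ne_zero
    have : (δ : ℂ) ≠ 0 := ofReal_ne_zero.2 hδ.ne'
    push_cast
    field_simp
  rw [cutSum, ← tsum_mul_left, ← tsum_congr hint, integral_tsum_of_summable_integral_norm hGi hS]
  simp only [hsum, hw]

/-- **The cut against the sharp sum.** -/
theorem exists_cutSum_sub_le {k N : ℕ} (hN : 2 ≤ N) {ε : ℝ} (hε : 0 < ε) :
    ∃ C, 0 ≤ C ∧ ∀ δ x : ℝ, 0 < δ → δ ≤ 1 → 1 ≤ x →
      ‖(piltzSum k x : ℂ) - cutSum k N δ x‖ ≤ C * (x ^ ε * (δ * x + 1)) := by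
  obtain ⟨C, hC, hd⟩ := exists_piltz_le k hε
  obtain ⟨B, hB, hb⟩ := exists_powCut_le hN
  refine ⟨(1 + B) * (C * (3 : ℝ) ^ ε) * 4, by positivity, fun δ x hδ hδ1 hx => ?_⟩
  have hx0 : 0 < x := by linarith
  obtain ⟨U, hU⟩ : ∃ U, U = ⌊x * Real.exp δ⌋₊ := ⟨_, rfl⟩
  obtain ⟨L, hL⟩ : ∃ L, L = ⌊x * Real.exp (-δ)⌋₊ := ⟨_, rfl⟩
  obtain ⟨g, hg⟩ : ∃ g : ℕ → ℂ, g = fun n : ℕ =>
      (if (n : ℝ) ≤ x then (piltz k n : ℂ) else 0) -
        (piltz k n : ℂ) * powCut N (cutPos δ x n) := ⟨_, rfl⟩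
  have hexp : 1 ≤ Real.exp δ := Real.one_le_exp hδ.le
  have hexp' : Real.exp (-δ) ≤ 1 := Real.exp_le_one_iff.2 (by linarith)
  have hcut : cutSum k N δ x =
      ∑ n ∈ Finset.Icc 1 U, (piltz k n : ℂ) * powCut N (cutPos δ x n) := by
    refine tsum_eq_sum fun n hn => ?_
    rcases eq_or_ne n 0 with rfl | h0
    · rw [piltz, ArithmeticFunction.map_zero]
      simp
    rw [powCut_eq_zero hN (one_le_cutPos hδ hx0 ?_), mul_zero]
    rw [Finset.mem_Icc, not_and, not_le, hU] at hn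
    exact (Nat.lt_of_floor_lt (hn (by omega))).le
  have hsharp : (piltzSum k x : ℂ) =
      ∑ n ∈ Finset.Icc 1 U, if (n : ℝ) ≤ x then (piltz k n : ℂ) else 0 := by
    rw [piltzSum, ofReal_sum, ← sum_filter]
    refine sum_congr ?_ fun _ _ => rfl
    ext n
    rw [mem_filter, Finset.mem_Icc, Finset.mem_Icc, hU, Nat.le_floor_iff hx0.le,
      Nat.le_floor_iff (by positivity : 0 ≤ x * Real.exp δ)]
    constructor
    · exact fun h => ⟨⟨h.1, h.2.trans (le_mul_of_one_le_right hx0.le hexp)⟩, h.2⟩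
    · exact fun h => ⟨h.1.1, h.2⟩
  rw [hsharp, hcut, ← sum_sub_distrib]
  change ‖∑ n ∈ Finset.Icc 1 U, _‖ ≤ _
  have hgz : ∀ n ∈ Finset.Icc 1 U, n ∉ Finset.Ioc L U → g n = 0 := fun n hn hn' => by
    rw [Finset.mem_Icc] at hn
    rw [Finset.mem_Ioc, not_and_or, not_lt] at hn'
    have hnL : (n : ℝ) ≤ x * Real.exp (-δ) := (Nat.le_floor_iff (by positivity)).1
      (hL ▸ hn'.resolve_right (not_not.2 hn.2))
    simp only [hg]
    rw [if_pos (hnL.trans (mul_le_of_le_one_right hx0.le hexp')),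
      powCut_eq_one hN (cutPos_le hδ hx0 hn.1 hnL), mul_one, sub_self]
  have hsub : Finset.Ioc L U ⊆ Finset.Icc 1 U := fun n hn => by
    rw [Finset.mem_Ioc] at hn
    exact Finset.mem_Icc.2 ⟨by omega, hn.2⟩
  have e : ∑ n ∈ Finset.Icc 1 U, g n = ∑ n ∈ Finset.Ioc L U, g n :=
    (sum_subset hsub hgz).symm
  have hone : ∀ n ∈ Finset.Ioc L U, ‖g n‖ ≤ (1 + B) * (C * ((3 : ℝ) ^ ε * x ^ ε)) := fun n hn => by
    have hn3 : (n : ℝ) ≤ 3 * x := by
      refine ((Nat.le_floor_iff (by positivity)).1 (hU ▸ (Finset.mem_Ioc.1 hn).2)).trans ?_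
      rw [mul_comm]
      refine mul_le_mul_of_nonneg_right ((Real.exp_le_exp.2 hδ1).trans ?_) hx0.le
      exact Real.exp_one_lt_d9.le.trans (by norm_num)
    have hp := piltz_nonneg k n
    have hpn : piltz k n ≤ C * ((3 : ℝ) ^ ε * x ^ ε) := by
      refine (hd n).trans (mul_le_mul_of_nonneg_left ?_ hC)
      rw [← Real.mul_rpow (by norm_num) hx0.le]
      exact Real.rpow_le_rpow (Nat.cast_nonneg n) hn3 hε.le
    refine le_trans ?_ (mul_le_mul_of_nonneg_left hpn (by positivity))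
    simp only [hg]
    refine (norm_sub_le _ _).trans ?_
    rw [add_mul, one_mul, norm_mul, Complex.norm_real, Real.norm_of_nonneg hp]
    refine add_le_add ?_ ?_
    · split_ifs
      · rw [Complex.norm_real, Real.norm_of_nonneg hp]
      · rw [norm_zero]; exact hp
    · rw [mul_comm]
      exact mul_le_mul_of_nonneg_right (hb _) hp
  have hcard : ((Finset.Ioc L U).card : ℝ) ≤ 4 * (δ * x + 1) := by
    rw [Nat.card_Ioc]
    rcases le_total U L with h | h
    · rw [Nat.sub_eq_zero_of_le h]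
      push_cast
      positivity
    rw [Nat.cast_sub h]
    have h1 : (U : ℝ) ≤ x * Real.exp δ := hU ▸ Nat.floor_le (by positivity)
    have h2 : x * Real.exp (-δ) < L + 1 := hL ▸ Nat.lt_floor_add_one _
    have h3 := (abs_le.1 (Real.abs_exp_sub_one_le (x := δ) (by rw [abs_of_pos hδ]; exact hδ1))).2
    have h4 := (abs_le.1 (Real.abs_exp_sub_one_le (x := -δ)
      (by rw [abs_neg, abs_of_pos hδ]; exact hδ1))).1
    rw [abs_of_pos hδ] at h3
    rw [abs_neg, abs_of_pos hδ] at h4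
    nlinarith
  calc _ = ‖∑ n ∈ Finset.Ioc L U, g n‖ := by rw [← e]; simp only [hg]
    _ ≤ _ := norm_sum_le_of_le _ hone
    _ = (Finset.Ioc L U).card * ((1 + B) * (C * ((3 : ℝ) ^ ε * x ^ ε))) := by
        rw [sum_const, nsmul_eq_mul]
    _ ≤ 4 * (δ * x + 1) * ((1 + B) * (C * ((3 : ℝ) ^ ε * x ^ ε))) :=
        mul_le_mul_of_nonneg_right hcard (by positivity)
    _ = _ := by ring

end FA.PiltzMoment

end
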