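import Fermat.Agent.PiltzMoment.Moments
import Fermat.Agent.PiltzMoment.Smoothing
import Fermat.Agent.PiltzDivisor.Main

/-!
# The divisor problem of Piltz from the moments of `ζ`

If the `k`th moment on the critical line has exponent `M ≥ 1`, the error in the divisor problem for
`d_k` is `O_ε (x ^ (1 - 1 / (2 M) + ε))`: the smoothed sum, the line moved to `re s = 1/2`, and the
scale `δ = x ^ (-1 / (2 M))`.
-/

set_option autoImplicit false

noncomputable section

namespace FA.PiltzMoment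

open Complex MeasureTheory Filter Finset Polynomial
open FA.TwelfthMoment (zetaAbs zetaAbs_nonneg)
open FA.PiltzDivisor (piltzSum exists_piltz_main)
open FA.SelbergCLT (decay decay_nonneg integrable_decay verticals_of_boxInt)
open FA.ExplicitFormula (boxInt boxEdges boxInt_congr boxInt_add boxInt_const_mul boxInt_eq_zero
  boxInt_sub)
open scoped Topology Real Nat

theorem exists_pow_split (k : ℕ) : ∀ g : ℂ → ℂ, Differentiable ℂ g →
    ∃ (a : ℕ → ℂ) (E : ℂ → ℂ), Differentiable ℂ E ∧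
      ∀ z, g z = (∑ i ∈ range k, a i * z ^ i) + z ^ k * E z := by
  induction k with
  | zero => exact fun g hg => ⟨0, g, hg, fun z => by simp⟩
  | succ k ih =>
    intro g hg
    obtain ⟨a, E, hE, h⟩ := ih (dslope g 0) (differentiableOn_univ.1
      ((Complex.differentiableOn_dslope univ_mem).2 hg.differentiableOn))
    refine ⟨fun i => if i = 0 then g 0 else a (i - 1), E, hE, fun z => ?_⟩
    have h1 : z * dslope g 0 z = g z - g 0 := by
      have := sub_smul_dslope g 0 z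
      rwa [smul_eq_mul, sub_zero] at this
    rw [eq_add_of_sub_eq h1.symm, h z, sum_range_succ', mul_add, mul_sum]
    have hs : ∀ i, z * (a i * z ^ i) = a i * z ^ (i + 1) := fun i => by ring
    simp only [hs, pow_zero, mul_one, Nat.add_one_ne_zero, if_false, if_true, Nat.add_sub_cancel]
    ring

/-- `(ζ₁ s) ^ k gPow N (δ s) / s`, without the pole. -/
def regPart (k N : ℕ) (δ : ℝ) (s : ℂ) : ℂ :=
  riemannZeta₁ s ^ k * gPow N ((δ : ℂ) * s) / s

/-- The function whose integral is the `i`th coefficient. -/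
def coefFn (k N : ℕ) (δ : ℝ) (i : ℕ) (s : ℂ) : ℂ :=
  regPart k N δ s * ((s - 1) ^ i / (s - 1) ^ k)

/-- The `i`th coefficient of the main term. -/
def boxCoef (k N : ℕ) (δ : ℝ) (i : ℕ) : ℂ := boxInt (coefFn k N δ i) (1 / 2) 2 1

theorem differentiableAt_regPart (k N : ℕ) (δ : ℝ) {s : ℂ} (hs : 0 < s.re) :
    DifferentiableAt ℂ (regPart k N δ) s :=
  (((differentiable_riemannZeta₁ s).pow k).mul
    ((differentiable_gPow N).comp (differentiable_id.const_mul _) s)).div differentiableAt_id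
      fun h => by simp [show s = 0 from h] at hs

theorem differentiableAt_piltzKer (k N : ℕ) (δ : ℝ) {x : ℝ} (hx : 0 < x) {s : ℂ} (hs : 0 < s.re)
    (hs1 : s ≠ 1) : DifferentiableAt ℂ (piltzKer k N δ x) s :=
  ((((differentiableAt_riemannZeta hs1).pow k).mul
    (differentiableAt_id.const_cpow (Or.inl (ofReal_ne_zero.2 hx.ne')))).mul
    ((differentiable_gPow N).comp (differentiable_id.const_mul _) s)).div differentiableAt_id
      fun h => by simp [show s = 0 from h] at hs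

theorem half_le_norm_sub_one {s : ℂ} (hs : s ∈ boxEdges (1 / 2) 2 1) : 1 / 2 ≤ ‖s - 1‖ := by
  rcases hs.2.2 with h | h | h | h
  · have := abs_im_le_norm (s - 1)
    simp [h] at this
    linarith
  · have := abs_im_le_norm (s - 1)
    simp [h] at this
    linarith
  · have := abs_re_le_norm (s - 1)
    simp [h] at this
    norm_num at this ⊢
    linarith
  · have := abs_re_le_norm (s - 1)
    simp [h] at this
    norm_num at this ⊢
    linarith

theorem re_mem_of_edge {s : ℂ} (hs : s ∈ boxEdges (1 / 2) 2 1) : 1 / 2 ≤ s.re ∧ s.re ≤ 2 := by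
  have := hs.1
  rwa [Set.uIcc_of_le (by norm_num), Set.mem_Icc] at this

theorem continuousAt_coefFn (k N : ℕ) (δ : ℝ) (i : ℕ) :
    ∀ s ∈ boxEdges (1 / 2) 2 1, ContinuousAt (coefFn k N δ i) s := fun s hs => by
  have h1 := half_le_norm_sub_one hs
  refine ((differentiableAt_regPart k N δ (by linarith [(re_mem_of_edge hs).1])).continuousAt).mul
    (((continuousAt_id.sub continuousAt_const).pow _).div
      ((continuousAt_id.sub continuousAt_const).pow _) (pow_ne_zero _ fun h => ?_))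
  rw [show s - 1 = 0 from h, norm_zero] at h1
  norm_num at h1

theorem boxInt_range_sum (f : ℕ → ℂ → ℂ) {a b T : ℝ}
    (hf : ∀ i, ∀ s ∈ boxEdges a b T, ContinuousAt (f i) s) : ∀ n : ℕ,
    boxInt (fun s => ∑ i ∈ range n, f i s) a b T = ∑ i ∈ range n, boxInt (f i) a b T
  | 0 => by simp [boxInt]
  | n + 1 => by
    simp only [sum_range_succ]
    rw [boxInt_add (F := fun s => ∑ i ∈ range n, f i s)
      (fun s hs => tendsto_finsetSum _ fun i _ => hf i s hs) (hf n),
      boxInt_range_sum f hf n]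

/-- **The main term is a polynomial in the logarithm.** -/
theorem exists_boxInt_piltzKer (k : ℕ) : ∃ a : ℕ → ℂ, ∀ (N : ℕ) (δ x R : ℝ), 0 < x → 1 ≤ R →
    boxInt (piltzKer k N δ x) (1 / 2) 2 R =
      x * ∑ i ∈ range k, a i * (Real.log x : ℂ) ^ i * boxCoef k N δ i := by
  obtain ⟨a, E, hE, he⟩ := exists_pow_split k Complex.exp Complex.differentiable_exp
  refine ⟨a, fun N δ x R hx hR => ?_⟩
  have hd : ∀ s : ℂ, 0 < s.re → s ≠ 1 → DifferentiableAt ℂ (piltzKer k N δ x) s := fun s =>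
    differentiableAt_piltzKer k N δ hx
  rw [boxInt_of_le (T₀ := 1) (by norm_num) zero_le_one hR (fun v => ⟨(hd _ (by simp)
      fun h => by have := congrArg Complex.re h; simp at this).continuousAt,
      (hd _ (by simp) fun h => by have := congrArg Complex.re h; simp at this).continuousAt⟩)
    fun s hs hi => hd s (lt_of_lt_of_le (by norm_num) hs.1) fun h => by
      rw [h] at hi; simp at hi; linarith]
  obtain ⟨L, hL⟩ : ∃ L : ℂ, L = (Real.log x : ℂ) := ⟨_, rfl⟩
  rw [← hL]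
  rw [boxInt_congr (G := fun s => (x : ℂ) * ((∑ i ∈ range k, a i * L ^ i * coefFn k N δ i s) +
    L ^ k * (regPart k N δ s * E ((s - 1) * L)))) fun s hs => ?_]
  · have hc1 : ∀ s ∈ boxEdges (1 / 2) 2 1,
        ContinuousAt (fun s => ∑ i ∈ range k, a i * L ^ i * coefFn k N δ i s) s := fun s hs =>
      tendsto_finsetSum _ fun i _ => continuousAt_const.mul (continuousAt_coefFn k N δ i s hs)
    have hd2 : ∀ s : ℂ, 0 < s.re →
        DifferentiableAt ℂ (fun s => L ^ k * (regPart k N δ s * E ((s - 1) * L))) s := fun s hs =>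
      ((differentiableAt_regPart k N δ hs).mul (hE.differentiableAt.comp s
        ((differentiableAt_id.sub_const 1).mul_const L))).const_mul _
    rw [boxInt_const_mul, boxInt_add hc1 fun s hs => (hd2 s (by
        linarith [(re_mem_of_edge hs).1])).continuousAt,
      boxInt_eq_zero (F := fun s => L ^ k * (regPart k N δ s * E ((s - 1) * L))) (by norm_num)
        zero_le_one fun s h1 _ => hd2 s (lt_of_lt_of_le (by norm_num) h1.1), add_zero,
      boxInt_range_sum (fun i s => a i * L ^ i * coefFn k N δ i s)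
        fun i s hs => continuousAt_const.mul (continuousAt_coefFn k N δ i s hs)]
    congr 1
    exact sum_congr rfl fun i _ => boxInt_const_mul _
  · have h1 := half_le_norm_sub_one hs
    have hu : s - 1 ≠ 0 := fun h => by rw [h, norm_zero] at h1; norm_num at h1
    have hxs : (x : ℂ) ^ s = x * cexp ((s - 1) * L) := by
      rw [show s = 1 + (s - 1) by ring, cpow_add _ _ (ofReal_ne_zero.2 hx.ne'), cpow_one,
        cpow_def_of_ne_zero (ofReal_ne_zero.2 hx.ne'), hL, ofReal_log hx.le]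
      ring_nf
    obtain ⟨u, hud⟩ : ∃ u, u = s - 1 := ⟨_, rfl⟩
    obtain ⟨W, hW⟩ : ∃ W, W = riemannZeta₁ s ^ k * gPow N ((δ : ℂ) * s) / s := ⟨_, rfl⟩
    simp only [piltzKer, regPart, coefFn, hxs, ← hud, ← hW] at hu ⊢
    have hsum : ∑ i ∈ range k, a i * L ^ i * (W * (u ^ i / u ^ k)) =
        W / u ^ k * ∑ i ∈ range k, a i * (u * L) ^ i := by
      rw [mul_sum]
      exact sum_congr rfl fun i _ => by rw [mul_pow]; ring
    rw [hsum, show riemannZeta s = riemannZeta₁ s / u by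
      rw [hud, riemannZeta_eq_inv_sub_mul (sub_ne_zero.1 (hud ▸ hu)), inv_mul_eq_div], he, div_pow,
      hW]
    field_simp
    ring

/-- **The coefficients move by `O (δ)`.** -/
theorem exists_boxCoef_sub (k N : ℕ) : ∃ C, 0 ≤ C ∧ ∀ i < k, ∀ δ : ℝ, 0 ≤ δ → δ ≤ 1 →
    ‖boxCoef k N δ i - boxCoef k N 0 i‖ ≤ C * δ := by
  obtain ⟨K, hK⟩ := (isCompact_Icc (a := (1 / 2 : ℝ)) (b := 2)).reProdIm
    (isCompact_Icc (a := (-1 : ℝ)) (b := 1)) |>.exists_bound_of_continuousOn
    (f := fun s => riemannZeta₁ s ^ k / s) ((differentiable_riemannZeta₁.continuous.pow k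
      ).continuousOn.div continuousOn_id fun s hs h => by
        have h2 : (1 / 2 : ℝ) ≤ s.re := hs.1.1
        rw [show s = 0 from h] at h2
        norm_num at h2)
  obtain ⟨G, hG⟩ := (isCompact_closedBall (0 : ℂ) 4).exists_bound_of_continuousOn
    (f := dslope (gPow N) 0) ((differentiableOn_univ.1 ((Complex.differentiableOn_dslope
      univ_mem).2 (differentiable_gPow N).differentiableOn)).continuous.continuousOn)
  refine ⟨|K| * (|G| * 4) * 2 ^ k * 8, by positivity, fun i hi δ hδ0 hδ1 => ?_⟩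
  rw [boxCoef, boxCoef, ← boxInt_sub (continuousAt_coefFn k N δ i) (continuousAt_coefFn k N 0 i)]
  refine (FA.LiCriterion.norm_boxInt_le (M := |K| * (|G| * 4) * 2 ^ k * δ) (by norm_num)
    zero_le_one fun s hs => ?_).trans (le_of_eq_of_le rfl ?_)
  · have hre := re_mem_of_edge hs
    have him : s.im ∈ Set.Icc (-1 : ℝ) 1 := by
      have := hs.2.1
      rwa [Set.uIcc_of_le (by norm_num)] at this
    have hn : ‖s‖ ≤ 4 := (norm_le_abs_re_add_abs_im s).trans (by
      rw [abs_of_nonneg (by linarith : 0 ≤ s.re)]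
      linarith [abs_le.2 him])
    have hw : ‖(δ : ℂ) * s‖ ≤ δ * 4 := by
      rw [norm_mul, Complex.norm_real, Real.norm_of_nonneg hδ0]
      exact mul_le_mul_of_nonneg_left hn hδ0
    have hg : ‖gPow N ((δ : ℂ) * s) - 1‖ ≤ |G| * 4 * δ := by
      have h := sub_smul_dslope (gPow N) 0 ((δ : ℂ) * s)
      rw [gPow_zero, smul_eq_mul, sub_zero] at h
      rw [← h, norm_mul]
      refine (mul_le_mul hw ((hG _ ?_).trans (le_abs_self G)) (norm_nonneg _) (by positivity)).trans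
        (le_of_eq (by ring))
      rw [Metric.mem_closedBall, dist_zero_right]
      exact hw.trans (by linarith)
    have h1 := half_le_norm_sub_one hs
    have hu : ‖(s - 1) ^ i / (s - 1) ^ k‖ ≤ 2 ^ k := by
      obtain ⟨m, rfl⟩ : ∃ m, k = i + m := ⟨k - i, by omega⟩
      have hp : 0 < ‖s - 1‖ := by linarith
      rw [norm_div, norm_pow, norm_pow, pow_add, ← div_div, div_self (pow_pos hp i).ne']
      rw [div_le_iff₀ (pow_pos hp m), pow_add, mul_assoc, ← mul_pow]
      exact one_le_mul_of_one_le_of_one_le (one_le_pow₀ one_le_two) (one_le_pow₀ (by linarith))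
    have e : coefFn k N δ i s - coefFn k N 0 i s = riemannZeta₁ s ^ k / s *
        (gPow N ((δ : ℂ) * s) - 1) * ((s - 1) ^ i / (s - 1) ^ k) := by
      simp only [coefFn, regPart, ofReal_zero, zero_mul, gPow_zero]
      ring
    rw [e, norm_mul, norm_mul]
    refine (mul_le_mul (mul_le_mul ((hK s ⟨hre, him⟩).trans (le_abs_self K)) hg (norm_nonneg _)
      (abs_nonneg K)) hu (norm_nonneg _) (by positivity)).trans (le_of_eq (by ring))
  · have : 0 ≤ |K| * (|G| * 4) * 2 ^ k * δ := by positivity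
    nlinarith

theorem decay_scale_le {N : ℕ} {a δ : ℝ} (ha : 0 ≤ a) (haN : a ≤ N) (hδ : 0 < δ) (hδ1 : δ ≤ 1)
    (v : ℝ) : decay N (δ * v) ≤ δ ^ (-a) * (1 + |v|) ^ (-a) := by
  rw [decay, ← Real.rpow_natCast, ← Real.rpow_neg (by positivity), abs_mul, abs_of_pos hδ,
    ← Real.mul_rpow hδ.le (by positivity)]
  refine (Real.rpow_le_rpow_of_exponent_le (by nlinarith [abs_nonneg v])
    (show -(N : ℝ) ≤ -a by linarith)).trans
      (Real.rpow_le_rpow_of_nonpos (by positivity) ?_ (by linarith))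
  nlinarith [abs_nonneg v]

/-- **The line `re s = 1/2`.** -/
theorem exists_halfLine_le {k N : ℕ} {M a : ℝ} (hN : 1 ≤ N) (hM : MomentExp k M) (hM0 : 0 ≤ M)
    (ha0 : 0 ≤ a) (haN : a ≤ N) (ha : M < 1 + a) :
    ∃ C, 0 ≤ C ∧ ∀ δ x : ℝ, 0 < δ → δ ≤ 1 → 0 < x →
      Integrable (fun v : ℝ => piltzKer k N δ x (((1 / 2 : ℝ) : ℂ) + (v : ℂ) * I)) ∧
        ‖∫ v : ℝ, piltzKer k N δ x (((1 / 2 : ℝ) : ℂ) + (v : ℂ) * I)‖ ≤
          C * (x ^ (1 / 2 : ℝ) * δ ^ (-a)) := by
  obtain ⟨J, hJ⟩ : ∃ J, J = ∫ t, zetaAbs t ^ k * (1 + |t|) ^ (-(1 + a)) := ⟨_, rfl⟩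
  have hJ0 : 0 ≤ J := hJ ▸ integral_nonneg fun t =>
    mul_nonneg (pow_nonneg (zetaAbs_nonneg t) k) (by positivity)
  have hi := integrable_weightedMoment hM hM0 ha
  refine ⟨9 * powConst N * J, by have := powConst_nonneg N; positivity,
    fun δ x hδ hδ1 hx => ?_⟩
  obtain ⟨w, hw⟩ : ∃ w : ℝ → ℂ, w = fun v : ℝ => ((1 / 2 : ℝ) : ℂ) + (v : ℂ) * I := ⟨_, rfl⟩
  have hwre : ∀ v, (w v).re = 1 / 2 := fun v => by simp [hw]
  have hwim : ∀ v, (w v).im = v := fun v => by simp [hw]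
  have hb : ∀ v : ℝ, ‖piltzKer k N δ x (w v)‖ ≤ 9 * powConst N * (x ^ (1 / 2 : ℝ) * δ ^ (-a)) *
      (zetaAbs v ^ k * (1 + |v|) ^ (-(1 + a))) := fun v => by
    have hz : ‖riemannZeta (w v)‖ = zetaAbs v := by
      rw [zetaAbs, hw]
      norm_num
    have hg : ‖gPow N ((δ : ℂ) * w v)‖ ≤ powConst N * 3 * (δ ^ (-a) * (1 + |v|) ^ (-a)) := by
      refine (norm_gPow_le hN _).trans ?_
      rw [re_ofReal_mul, im_ofReal_mul, hwre, hwim]
      refine mul_le_mul (mul_le_mul_of_nonneg_left ((Real.exp_le_exp.2 ?_).trans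
        (Real.exp_one_lt_d9.le.trans (by norm_num))) (powConst_nonneg N))
        (decay_scale_le ha0 haN hδ hδ1 v) (decay_nonneg _ _)
        (by have := powConst_nonneg N; positivity)
      rw [abs_of_pos (by positivity)]
      linarith
    have hn : (1 + |v|) / 3 ≤ ‖w v‖ := by
      have h1 := abs_re_le_norm (w v)
      have h2 := abs_im_le_norm (w v)
      rw [hwre, abs_of_pos (by norm_num : (0 : ℝ) < 1 / 2)] at h1
      rw [hwim] at h2
      linarith
    rw [piltzKer, norm_div, norm_mul, norm_mul, norm_pow, hz, norm_cpow_eq_rpow_re_of_pos hx,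
      hwre]
    refine (div_le_div₀ (mul_nonneg (mul_nonneg (pow_nonneg (zetaAbs_nonneg v) k) (by positivity))
      (by have := powConst_nonneg N; positivity)) (mul_le_mul_of_nonneg_left hg
        (mul_nonneg (pow_nonneg (zetaAbs_nonneg v) k) (by positivity))) (by positivity) hn).trans
      (le_of_eq ?_)
    rw [neg_add, Real.rpow_add (by positivity : 0 < 1 + |v|), Real.rpow_neg_one]
    field_simp
    ring
  have hc : Continuous fun v : ℝ => piltzKer k N δ x (w v) := continuous_iff_continuousAt.2 fun v =>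
    ContinuousAt.comp (g := piltzKer k N δ x) (differentiableAt_piltzKer k N δ hx
      (by rw [hwre]; norm_num) fun h => by have := hwre v; rw [h] at this; norm_num at this
      ).continuousAt (hw ▸ by fun_prop : ContinuousAt w v)
  simp only [hw] at hb hc
  refine ⟨(hi.const_mul _).mono' hc.aestronglyMeasurable (Eventually.of_forall hb),
    (norm_integral_le_of_norm_le (hi.const_mul _) (Eventually.of_forall hb)).trans (le_of_eq ?_)⟩
  rw [integral_const_mul, ← hJ]
  ring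

/-- **The line moved.** -/
theorem piltzKer_shift {k N : ℕ} (hN : k + 2 ≤ N) {δ x : ℝ} (hδ : 0 < δ) (hx : 1 ≤ x) {c : ℂ}
    (hhalf : Integrable fun v : ℝ => piltzKer k N δ x (((1 / 2 : ℝ) : ℂ) + (v : ℂ) * I))
    (hbox : ∀ R : ℝ, 1 ≤ R → boxInt (piltzKer k N δ x) (1 / 2) 2 R = c) :
    I * ((∫ v : ℝ, piltzKer k N δ x (((2 : ℝ) : ℂ) + (v : ℂ) * I)) -
      ∫ v : ℝ, piltzKer k N δ x (((1 / 2 : ℝ) : ℂ) + (v : ℂ) * I)) = c := by
  have hx0 : 0 < x := by linarith
  have hK := powConst_nonneg N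
  have hnum : ∀ u v : ℝ, 1 / 2 ≤ u → u ≤ 2 → ∀ Z : ℝ, 0 ≤ Z →
      ‖riemannZeta ((u : ℂ) + (v : ℂ) * I)‖ ≤ Z → 1 ≤ |v| ∨ 1 ≤ u →
      ‖piltzKer k N δ x ((u : ℂ) + (v : ℂ) * I)‖ ≤
        Z ^ k * x ^ (2 : ℝ) * (powConst N * Real.exp (2 * δ)) * decay N (δ * v) := by
    intro u v hu hu2 Z hZ hz h1
    have hn : 1 ≤ ‖(u : ℂ) + (v : ℂ) * I‖ := by
      rcases h1 with h | h
      · exact h.trans (by simpa using abs_im_le_norm ((u : ℂ) + (v : ℂ) * I))
      · exact (le_trans h (le_abs_self u)).trans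
          (by simpa using abs_re_le_norm ((u : ℂ) + (v : ℂ) * I))
    rw [piltzKer, norm_div]
    refine (div_le_self (norm_nonneg _) hn).trans ?_
    rw [norm_mul, norm_mul, norm_pow, norm_cpow_eq_rpow_re_of_pos hx0,
      show ((u : ℂ) + (v : ℂ) * I).re = u by simp, mul_assoc (Z ^ k * x ^ (2 : ℝ))]
    refine mul_le_mul (mul_le_mul (pow_le_pow_left₀ (norm_nonneg _) hz k)
      (Real.rpow_le_rpow_of_exponent_le hx hu2) (by positivity) (by positivity)) ?_
      (norm_nonneg _) (by positivity)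
    refine (norm_gPow_le (by omega) _).trans ?_
    rw [re_ofReal_mul, im_ofReal_mul, show ((u : ℂ) + (v : ℂ) * I).re = u by simp,
      show ((u : ℂ) + (v : ℂ) * I).im = v by simp, abs_of_pos (mul_pos hδ (by linarith))]
    refine mul_le_mul_of_nonneg_right (mul_le_mul_of_nonneg_left (Real.exp_le_exp.2 ?_) hK)
      (decay_nonneg _ _)
    nlinarith
  have htwo : Integrable fun v : ℝ => piltzKer k N δ x (((2 : ℝ) : ℂ) + (v : ℂ) * I) := by
    refine (((integrable_decay (show 2 ≤ N by omega)).comp_mul_left' hδ.ne').const_mul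
      (‖riemannZeta ((2 : ℝ) : ℂ)‖ ^ k * x ^ (2 : ℝ) * (powConst N * Real.exp (2 * δ)))).mono'
      (continuous_iff_continuousAt.2 fun v => ContinuousAt.comp (g := piltzKer k N δ x)
        (differentiableAt_piltzKer k N δ hx0 (by simp) fun h => by
          have := congrArg Complex.re h; simp at this).continuousAt
        (by fun_prop : ContinuousAt (fun v : ℝ => ((2 : ℝ) : ℂ) + (v : ℂ) * I) v)
        ).aestronglyMeasurable (Eventually.of_forall fun v => hnum 2 v (by norm_num) le_rfl _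
          (norm_nonneg _) (FA.DLVP.norm_zeta_le_real (by norm_num) (by simp)) (Or.inr one_le_two))
  obtain ⟨D, hD⟩ : ∃ D, D = (20 : ℝ) ^ k * x ^ (2 : ℝ) * (powConst N * Real.exp (2 * δ)) /
      δ ^ N := ⟨_, rfl⟩
  have hh : ∀ᶠ R in atTop, ∀ u ∈ Set.uIcc (1 / 2 : ℝ) 2,
      ‖piltzKer k N δ x ((u : ℂ) + ((-R : ℝ) : ℂ) * I)‖ ≤ D / R ∧
        ‖piltzKer k N δ x ((u : ℂ) + (R : ℂ) * I)‖ ≤ D / R := by
    filter_upwards [eventually_ge_atTop 1] with R hR u hu
    rw [Set.uIcc_of_le (by norm_num)] at hu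
    have hbd : ∀ v : ℝ, |v| = R → ‖piltzKer k N δ x ((u : ℂ) + (v : ℂ) * I)‖ ≤ D / R :=
      fun v hv => by
      have hz : ‖riemannZeta ((u : ℂ) + (v : ℂ) * I)‖ ≤ 20 * R := by
        refine (FA.DLVP.norm_zeta_crude (by simp; linarith [hu.1]) (by simp; linarith [hu.2])
          (by simpa [hv] using hR)).trans ?_
        simp [hv]
        linarith
      refine (hnum u v hu.1 hu.2 _ (by linarith) hz (Or.inl (hv ▸ hR))).trans ?_
      have hdec : decay N (δ * v) ≤ ((δ * R) ^ N)⁻¹ := by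
        rw [decay, abs_mul, abs_of_pos hδ, hv]
        exact inv_anti₀ (by positivity) (pow_le_pow_left₀ (by positivity) (by linarith) N)
      refine (mul_le_mul_of_nonneg_left hdec (by positivity)).trans ?_
      have hRN : R ^ k * R ≤ R ^ N := by
        rw [← pow_succ]
        exact pow_le_pow_right₀ hR (by omega)
      rw [mul_pow, mul_pow, hD, div_div, ← div_eq_mul_inv, div_le_div_iff₀ (by positivity)
        (by positivity)]
      have := mul_le_mul_of_nonneg_left hRN (show 0 ≤ (20 : ℝ) ^ k * x ^ (2 : ℝ) *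
        (powConst N * Real.exp (2 * δ)) * δ ^ N by positivity)
      linarith
    exact ⟨hbd _ (by rw [abs_neg, abs_of_nonneg (by linarith)]),
      hbd _ (abs_of_nonneg (by linarith))⟩
  exact verticals_of_boxInt hhalf htwo ((eventually_ge_atTop 1).mono hbox)
    (tendsto_const_nhds.div_atTop tendsto_id) hh

/-- The error against some polynomial. -/
theorem exists_poly_error {k : ℕ} (hk : 1 ≤ k) {M : ℝ} (hM1 : 1 ≤ M) (hM : MomentExp k M) :
    ∃ P : ℝ[X], ∀ ε : ℝ, 0 < ε → ∃ C : ℝ, ∀ x : ℝ, 2 ≤ x →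
      |piltzSum k x - x * P.eval (Real.log x)| ≤ C * x ^ (1 - 1 / (2 * M) + ε) := by
  obtain ⟨N, hN⟩ : ∃ N, N = k + 2 + ⌈M⌉₊ := ⟨_, rfl⟩
  have hN2 : 2 ≤ N := by omega
  obtain ⟨b, hb⟩ := exists_boxInt_piltzKer k
  obtain ⟨T, hT⟩ : ∃ T : ℂ, T = 2 * π * I := ⟨_, rfl⟩
  have hT0 : T ≠ 0 := hT ▸ mul_ne_zero (mul_ne_zero two_ne_zero
    (ofReal_ne_zero.2 Real.pi_ne_zero)) I_ne_zero
  refine ⟨∑ i ∈ range k, Polynomial.C (b i * boxCoef k N 0 i / T).re * X ^ i, fun ε hε => ?_⟩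
  obtain ⟨e, he⟩ : ∃ e, e = min ε 1 := ⟨_, rfl⟩
  have he0 : 0 < e := he ▸ lt_min hε one_pos
  obtain ⟨a, ha⟩ : ∃ a, a = M - 1 + e := ⟨_, rfl⟩
  obtain ⟨CH, hCH, hH⟩ := exists_halfLine_le (N := N) (a := a) (k := k) (by omega) hM
    (by linarith) (by linarith) (by
      rw [ha, hN]
      push_cast
      linarith [Nat.le_ceil M, min_le_right ε 1, Nat.cast_nonneg (α := ℝ) k]) (by linarith)
  obtain ⟨CS, hCS, hS⟩ := exists_cutSum_sub_le (k := k) (N := N) hN2 he0
  obtain ⟨CB, hCB, hB⟩ := exists_boxCoef_sub k N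
  obtain ⟨B, hBd⟩ : ∃ B, B = (∑ i ∈ range k, ‖b i‖) * CB * (1 + (k : ℝ) / e) ^ k := ⟨_, rfl⟩
  refine ⟨2 * CS + CH + B, fun x hx => ?_⟩
  have hx0 : 0 < x := by linarith
  have hx1 : 1 ≤ x := by linarith
  obtain ⟨l, hl⟩ : ∃ l, l = 1 / (2 * M) := ⟨_, rfl⟩
  have hl0 : 0 < l := hl ▸ by positivity
  have hl1 : l ≤ 1 / 2 := hl ▸ one_div_le_one_div_of_le two_pos (by linarith)
  obtain ⟨δ, hδ⟩ : ∃ δ, δ = x ^ (-l) := ⟨_, rfl⟩
  have hδ0 : 0 < δ := hδ ▸ Real.rpow_pos_of_pos hx0 _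
  have hδ1 : δ ≤ 1 := hδ ▸ Real.rpow_le_one_of_one_le_of_nonpos hx1 (by linarith)
  obtain ⟨L, hL⟩ : ∃ L, L = Real.log x := ⟨_, rfl⟩
  have hL0 : 0 ≤ L := hL ▸ Real.log_nonneg hx1
  obtain ⟨hi, hhalf⟩ := hH δ x hδ0 hδ1 hx0
  have hsh := piltzKer_shift (by omega) hδ0 hx1 hi fun R hR => hb N δ x R hx0 hR
  rw [integral_piltzKer_two hN2 hδ0 hx0, ← hL] at hsh
  obtain ⟨V, hV⟩ : ∃ V, V = ∫ v : ℝ, piltzKer k N δ x (((1 / 2 : ℝ) : ℂ) + (v : ℂ) * I) :=
    ⟨_, rfl⟩
  rw [← hV] at hsh hhalf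
  obtain ⟨Z, hZ⟩ : ∃ Z : ℂ, Z = x * ∑ i ∈ range k, b i * boxCoef k N 0 i / T * (L : ℂ) ^ i :=
    ⟨_, rfl⟩
  have hre : x * (∑ i ∈ range k, Polynomial.C (b i * boxCoef k N 0 i / T).re * X ^ i).eval L =
      Z.re := by
    rw [hZ, re_ofReal_mul, Complex.re_sum, eval_finsetSum]
    congr 1
    refine sum_congr rfl fun i _ => ?_
    rw [eval_mul, eval_C, eval_pow, eval_X, ← ofReal_pow, re_mul_ofReal]
  rw [← hL, hre, ← ofReal_re (piltzSum k x), ← sub_re]
  refine (Complex.abs_re_le_norm _).trans ?_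
  have hsplit : (piltzSum k x : ℂ) - Z = ((piltzSum k x : ℂ) - cutSum k N δ x) + I * V / T +
      x * ∑ i ∈ range k, b i * (L : ℂ) ^ i * (boxCoef k N δ i - boxCoef k N 0 i) / T := by
    simp only [mul_sub, sub_div, sum_sub_distrib]
    rw [hZ, ← sum_div, mul_div_assoc' (x : ℂ), ← hsh,
      show (∑ i ∈ range k, b i * boxCoef k N 0 i / T * (L : ℂ) ^ i) =
        ∑ i ∈ range k, b i * (L : ℂ) ^ i * boxCoef k N 0 i / T from
        sum_congr rfl fun i _ => by ring]
    rw [hT] at hT0 ⊢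
    field_simp
    ring
  rw [hsplit]
  obtain ⟨q, hq⟩ : ∃ q, q = 1 - 1 / (2 * M) + ε := ⟨_, rfl⟩
  rw [← hq]
  have heε : e ≤ ε := he ▸ min_le_left _ _
  have hTn : 1 ≤ ‖T‖ := by
    rw [hT, norm_mul, norm_mul, Complex.norm_two, Complex.norm_real,
      Real.norm_of_nonneg Real.pi_pos.le, norm_I]
    linarith [Real.pi_gt_three]
  have hδx : δ * x = x ^ (1 - l) := by
    rw [hδ, sub_eq_add_neg, Real.rpow_add hx0, Real.rpow_one, mul_comm]
  have hxq : x ^ e * x ^ (1 - l) ≤ x ^ q := by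
    rw [← Real.rpow_add hx0]
    exact Real.rpow_le_rpow_of_exponent_le hx1 (by rw [hq, ← hl]; linarith)
  refine (norm_add_le _ _).trans ((add_le_add ((norm_add_le _ _).trans (add_le_add ?_ ?_))
    ?_).trans (le_of_eq (show 2 * CS * x ^ q + CH * x ^ q + B * x ^ q = (2 * CS + CH + B) * x ^ q
      by ring)))
  · refine (hS δ x hδ0 hδ1 hx1).trans ?_
    rw [mul_comm 2 CS, mul_assoc CS 2]
    refine mul_le_mul_of_nonneg_left ?_ hCS
    have : 1 ≤ x ^ (1 - l) := Real.one_le_rpow hx1 (by linarith)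
    rw [hδx]
    nlinarith [Real.rpow_nonneg hx0.le e]
  · rw [norm_div, norm_mul, norm_I, one_mul]
    refine (div_le_self (norm_nonneg _) hTn).trans (hhalf.trans ?_)
    refine mul_le_mul_of_nonneg_left ?_ hCH
    rw [hδ, ← Real.rpow_mul hx0.le, ← Real.rpow_add hx0]
    refine Real.rpow_le_rpow_of_exponent_le hx1 ?_
    have h2 : l * M = 1 / 2 := by rw [hl]; field_simp
    have h3 : l * e ≤ e / 2 := by nlinarith
    rw [hq, ← hl, ha]
    nlinarith
  · have hLk : ∀ i ∈ range k, L ^ i ≤ (1 + (k : ℝ) / e) ^ k * x ^ e := fun i hi => by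
      have hk0 : (0 : ℝ) < k := Nat.cast_pos.2 hk
      have h1 : 1 + L ≤ (1 + (k : ℝ) / e) * x ^ (e / k) := by
        rw [add_mul, one_mul, show (k : ℝ) / e * x ^ (e / k) = x ^ (e / k) / (e / k) by field_simp]
        exact add_le_add (Real.one_le_rpow hx1 (by positivity))
          (hL ▸ Real.log_le_rpow_div hx0.le (by positivity))
      calc L ^ i ≤ (1 + L) ^ i := pow_le_pow_left₀ hL0 (by linarith) i
        _ ≤ (1 + L) ^ k := pow_le_pow_right₀ (by linarith) (mem_range.1 hi).le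
        _ ≤ ((1 + (k : ℝ) / e) * x ^ (e / k)) ^ k := pow_le_pow_left₀ (by linarith) h1 k
        _ = _ := by rw [mul_pow, ← Real.rpow_mul_natCast hx0.le, div_mul_cancel₀ _ hk0.ne']
    rw [norm_mul, Complex.norm_real, Real.norm_of_nonneg hx0.le]
    refine (mul_le_mul_of_nonneg_left (norm_sum_le_of_le _ fun i hi =>
      show ‖b i * (L : ℂ) ^ i * (boxCoef k N δ i - boxCoef k N 0 i) / T‖ ≤
        ‖b i‖ * (CB * (1 + (k : ℝ) / e) ^ k * x ^ e * δ) from ?_) hx0.le).trans ?_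
    · rw [norm_div, norm_mul, norm_mul, norm_pow, Complex.norm_real, Real.norm_of_nonneg hL0]
      refine (div_le_self (by positivity) hTn).trans ?_
      rw [mul_assoc ‖b i‖]
      refine mul_le_mul_of_nonneg_left ((mul_le_mul (hLk i hi) (hB i (mem_range.1 hi) δ hδ0.le hδ1)
        (norm_nonneg _) (by positivity)).trans (le_of_eq (by ring))) (norm_nonneg _)
    · rw [← sum_mul, hBd]
      calc x * ((∑ i ∈ range k, ‖b i‖) * (CB * (1 + (k : ℝ) / e) ^ k * x ^ e * δ))
          = (∑ i ∈ range k, ‖b i‖) * CB * (1 + (k : ℝ) / e) ^ k * (x ^ e * (δ * x)) := by ring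
        _ ≤ _ := by
          rw [hδx]
          exact mul_le_mul_of_nonneg_left hxq (by positivity)

/-- A polynomial in `log x` below a negative power of `x` vanishes. -/
theorem eq_zero_of_eval_log_le {R : ℝ[X]} {C θ : ℝ} (hθ : θ < 1)
    (h : ∀ x : ℝ, 3 ≤ x → |x * R.eval (Real.log x)| ≤ C * x ^ θ) : R = 0 := by
  have ht : Tendsto (fun L => R.eval L) atTop (𝓝 0) := by
    refine squeeze_zero_norm' (a := fun L => C * Real.exp (-((1 - θ) * L))) ?_ ?_
    · filter_upwards [eventually_ge_atTop (2 : ℝ)] with L hL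
      have hx : (3 : ℝ) ≤ Real.exp L := le_trans (by linarith) (Real.add_one_le_exp L)
      have := h _ hx
      rw [Real.log_exp, abs_mul, abs_of_pos (Real.exp_pos L), ← Real.exp_mul] at this
      refine le_of_mul_le_mul_left (this.trans (le_of_eq ?_)) (Real.exp_pos L)
      rw [mul_left_comm, ← Real.exp_add]
      ring_nf
    · simpa using (Real.tendsto_exp_neg_atTop_nhds_zero.comp
        (tendsto_id.const_mul_atTop (sub_pos.2 hθ))).const_mul C
  exact leadingCoeff_eq_zero.1 ((Polynomial.tendsto_nhds_iff R).1 ht).1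

/-- **Piltz's problem from a moment**: the exponent `1 - 1 / (2 M)`. -/
theorem exists_piltz_of_momentExp {k : ℕ} (hk : 1 ≤ k) {M : ℝ} (hM1 : 1 ≤ M)
    (hM : MomentExp k M) :
    ∃ P : ℝ[X], P.natDegree = k - 1 ∧ P.leadingCoeff = 1 / (k - 1)! ∧
      ∀ ε : ℝ, 0 < ε → ∃ C : ℝ, ∀ x : ℝ, 2 ≤ x →
        |piltzSum k x - x * P.eval (Real.log x)| ≤ C * x ^ (1 - 1 / (2 * M) + ε) := by
  obtain ⟨P, hd, hl, ⟨C₀, hP⟩, -⟩ := exists_piltz_main hk
  obtain ⟨R, hR⟩ := exists_poly_error hk hM1 hM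
  suffices e : R = P from ⟨P, hd, hl, e ▸ hR⟩
  obtain ⟨C₁, hR1⟩ := hR (1 / (4 * M)) (by positivity)
  obtain ⟨θ, hθ⟩ : ∃ θ : ℝ, θ = max (1 - 1 / (32 * (k : ℝ))) (1 - 1 / (4 * M)) := ⟨_, rfl⟩
  have hk0 : (0 : ℝ) < k := Nat.cast_pos.2 hk
  refine sub_eq_zero.1 (eq_zero_of_eval_log_le (C := |C₀| + |C₁|) (θ := θ) ?_ fun x hx => ?_)
  · rw [hθ]
    exact max_lt (sub_lt_self _ (by positivity)) (sub_lt_self _ (by positivity))
  have hx1 : 1 ≤ x := by linarith
  rw [eval_sub, show x * (R.eval (Real.log x) - P.eval (Real.log x)) =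
    (piltzSum k x - x * P.eval (Real.log x)) - (piltzSum k x - x * R.eval (Real.log x)) by ring]
  refine (abs_sub _ _).trans ?_
  rw [add_mul]
  refine add_le_add ((hP x (by linarith)).trans ?_) ((hR1 x (by linarith)).trans ?_)
  · exact mul_le_mul (le_abs_self _) (Real.rpow_le_rpow_of_exponent_le hx1
      (hθ ▸ le_max_left _ _)) (by positivity) (abs_nonneg _)
  · refine mul_le_mul (le_abs_self _) (Real.rpow_le_rpow_of_exponent_le hx1
      (le_trans (le_of_eq ?_) (hθ ▸ le_max_right _ _))) (by positivity) (abs_nonneg _)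
    field_simp
    ring

end FA.PiltzMoment

end
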