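import Fermat.Agent.TwelfthMoment.Moment

/-!
# Moments of `ζ` on the critical line

The exponents `(k + 4) / 8` for `4 ≤ k ≤ 12` and `k / 6` for `k ≥ 12` of the `k`th moment, from the
fourth and the twelfth moments and the bound of Weyl; the weighted integrals they control.
-/

set_option autoImplicit false

noncomputable section

namespace FA.PiltzMoment

open MeasureTheory Filter
open FA.TwelfthMoment (zetaAbs continuous_zetaAbs zetaAbs_nonneg twelfth_moment_le)
open scoped Topology Real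

/-- `∫_0^V |ζ (1/2 + it)| ^ k = O_ε (V ^ (M + ε))`. -/
def MomentExp (k : ℕ) (M : ℝ) : Prop :=
  ∀ ε : ℝ, 0 < ε → ∃ C, 0 ≤ C ∧ ∀ V : ℝ, 1 ≤ V →
    (∫ t in (0 : ℝ)..V, zetaAbs t ^ k) ≤ C * V ^ (M + ε)

theorem momentExp_four : MomentExp 4 1 := fun ε hε => by
  obtain ⟨C, hC, h⟩ := FA.FourthMoment.fourth_moment_le
  refine ⟨C * (4 + 4 / ε) ^ 4, by positivity, fun V hV => (h V (by linarith)).trans ?_⟩
  have hV0 : 0 < V := by linarith
  have hl : Real.log (V + 2) ≤ (4 + 4 / ε) * V ^ (ε / 4) := by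
    refine (Real.log_le_log (by linarith) (show V + 2 ≤ 4 * V by linarith)).trans ?_
    rw [Real.log_mul (by norm_num) hV0.ne', add_mul, show 4 / ε * V ^ (ε / 4) =
      V ^ (ε / 4) / (ε / 4) by ring]
    have h1 : Real.log 4 ≤ 4 := (Real.log_le_sub_one_of_pos (by norm_num)).trans (by norm_num)
    have h2 : 1 ≤ V ^ (ε / 4) := Real.one_le_rpow hV (by positivity)
    linarith [Real.log_le_rpow_div hV0.le (show 0 < ε / 4 by positivity)]
  calc C * (V * Real.log (V + 2) ^ 4) ≤ C * (V * ((4 + 4 / ε) * V ^ (ε / 4)) ^ 4) := by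
        gcongr
        exact Real.log_nonneg (by linarith)
    _ = C * (4 + 4 / ε) ^ 4 * V ^ (1 + ε) := by
        rw [mul_pow, ← Real.rpow_mul_natCast hV0.le, Real.rpow_add hV0, Real.rpow_one,
          show ε / 4 * ((4 : ℕ) : ℝ) = ε by push_cast; ring]
        ring

/-- Between the fourth and the twelfth moment. -/
theorem momentExp_between {k : ℕ} (h4 : 4 ≤ k) (h12 : k ≤ 12) :
    MomentExp k (((k : ℝ) + 4) / 8) := fun ε hε => by
  obtain ⟨C₄, hC₄, hf⟩ := momentExp_four ε hε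
  obtain ⟨C₁₂, hC₁₂, ht⟩ := twelfth_moment_le hε
  refine ⟨C₄ + C₁₂, by positivity, fun V hV => ?_⟩
  obtain ⟨a, rfl⟩ : ∃ a, k = 4 + a := ⟨k - 4, by omega⟩
  obtain ⟨b, hb⟩ : ∃ b, 8 = a + b := ⟨8 - a, by omega⟩
  obtain ⟨s, hs⟩ : ∃ s, s = V ^ (1 / 8 : ℝ) := ⟨_, rfl⟩
  have hV0 : 0 < V := by linarith
  have hs0 : 0 < s := hs ▸ Real.rpow_pos_of_pos hV0 _
  have hi : ∀ n : ℕ, IntervalIntegrable (fun t => zetaAbs t ^ n) volume 0 V := fun n =>
    (continuous_zetaAbs.pow n).intervalIntegrable 0 V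
  have hp : ∀ t, zetaAbs t ^ (4 + a) ≤ s ^ a * zetaAbs t ^ 4 + zetaAbs t ^ 12 / s ^ b := fun t => by
    have hx := zetaAbs_nonneg t
    rcases le_total (zetaAbs t) s with h | h
    · refine le_add_of_le_of_nonneg ?_ (by positivity)
      rw [add_comm, pow_add]
      gcongr
    · refine le_add_of_nonneg_of_le (by positivity) ?_
      rw [le_div_iff₀ (pow_pos hs0 b), show 12 = 4 + a + b by omega, pow_add (zetaAbs t) (4 + a)]
      gcongr
  refine (intervalIntegral.integral_mono_on hV0.le (hi _)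
    (((hi 4).const_mul _).add ((hi 12).div_const _)) fun t _ => hp t).trans ?_
  rw [intervalIntegral.integral_add ((hi 4).const_mul _) ((hi 12).div_const _),
    intervalIntegral.integral_const_mul, intervalIntegral.integral_div, add_mul]
  have e : s ^ a = V ^ ((a : ℝ) / 8) := by
    rw [hs, ← Real.rpow_mul_natCast hV0.le, one_div_mul_eq_div]
  have e' : s ^ b = V ^ (1 - (a : ℝ) / 8) := by
    have : (8 : ℝ) = a + b := by exact_mod_cast hb
    rw [hs, ← Real.rpow_mul_natCast hV0.le, show 1 / 8 * (b : ℝ) = 1 - (a : ℝ) / 8 by linarith]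
  refine add_le_add ?_ ?_
  · refine (mul_le_mul_of_nonneg_left (hf V hV) (by positivity)).trans (le_of_eq ?_)
    rw [e, mul_left_comm, ← Real.rpow_add hV0]
    push_cast
    ring_nf
  · refine (div_le_div_of_nonneg_right (ht V hV) (by positivity)).trans (le_of_eq ?_)
    rw [e', mul_div_assoc, ← Real.rpow_sub hV0]
    push_cast
    ring_nf

/-- The bound of Weyl on `[0, V]`. -/
theorem exists_zetaAbs_le {δ : ℝ} (hδ : 0 < δ) :
    ∃ B, 0 ≤ B ∧ ∀ V t : ℝ, 1 ≤ V → 0 ≤ t → t ≤ V → zetaAbs t ≤ B * V ^ ((1 : ℝ) / 6 + δ) := by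
  obtain ⟨K, hK⟩ := (isCompact_Icc (a := (0 : ℝ)) (b := 2)).exists_bound_of_continuousOn
    continuous_zetaAbs.continuousOn
  refine ⟨|K| + 600000 / δ, by positivity, fun V t hV h0 htV => ?_⟩
  have hV1 : 1 ≤ V ^ ((1 : ℝ) / 6 + δ) := Real.one_le_rpow hV (by positivity)
  rcases le_or_gt t 2 with h | h
  · refine ((le_abs_self _).trans (hK t ⟨h0, h⟩)).trans ((le_abs_self K).trans ?_)
    refine le_trans ?_ (le_mul_of_one_le_right (by positivity) hV1)
    linarith [show 0 ≤ 600000 / δ by positivity]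
  · refine (FA.Subconvexity.norm_riemannZeta_half_le h.le).trans ?_
    have h1 : Real.log t ≤ V ^ δ / δ :=
      (Real.log_le_log (by linarith) htV).trans (Real.log_le_rpow_div (by linarith) hδ)
    calc 600000 * t ^ ((1 : ℝ) / 6) * Real.log t ≤ 600000 * V ^ ((1 : ℝ) / 6) * (V ^ δ / δ) :=
          mul_le_mul (by gcongr) h1 (Real.log_nonneg (by linarith)) (by positivity)
      _ = 600000 / δ * V ^ ((1 : ℝ) / 6 + δ) := by rw [Real.rpow_add (by linarith)]; ring
      _ ≤ _ := mul_le_mul_of_nonneg_right (by linarith [abs_nonneg K]) (by positivity)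

/-- Beyond the twelfth moment. -/
theorem momentExp_twelve_le {k : ℕ} (h12 : 12 ≤ k) : MomentExp k ((k : ℝ) / 6) := fun ε hε => by
  obtain ⟨j, rfl⟩ : ∃ j, k = 12 + j := ⟨k - 12, by omega⟩
  obtain ⟨δ, hδ⟩ : ∃ δ, δ = ε / (2 * ((j : ℝ) + 1)) := ⟨_, rfl⟩
  have hδ0 : 0 < δ := hδ ▸ by positivity
  obtain ⟨B, hB, hb⟩ := exists_zetaAbs_le hδ0
  obtain ⟨C, hC, ht⟩ := twelfth_moment_le (half_pos hε)
  refine ⟨B ^ j * C, by positivity, fun V hV => ?_⟩
  have hV0 : 0 < V := by linarith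
  have hi : ∀ n : ℕ, IntervalIntegrable (fun t => zetaAbs t ^ n) volume 0 V := fun n =>
    (continuous_zetaAbs.pow n).intervalIntegrable 0 V
  refine (intervalIntegral.integral_mono_on hV0.le (hi _) ((hi 12).const_mul
    ((B * V ^ ((1 : ℝ) / 6 + δ)) ^ j)) fun t h => ?_).trans ?_
  · rw [add_comm 12 j, pow_add]
    exact mul_le_mul_of_nonneg_right (pow_le_pow_left₀ (zetaAbs_nonneg t) (hb V t hV h.1 h.2) j)
      (pow_nonneg (zetaAbs_nonneg t) _)
  rw [intervalIntegral.integral_const_mul]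
  refine (mul_le_mul_of_nonneg_left (ht V hV) (by positivity)).trans ?_
  rw [mul_pow, ← Real.rpow_mul_natCast hV0.le, mul_mul_mul_comm, ← Real.rpow_add hV0]
  refine mul_le_mul_of_nonneg_left (Real.rpow_le_rpow_of_exponent_le hV ?_) (by positivity)
  have h2 : (j : ℝ) * δ ≤ ε / 2 := by
    rw [hδ, mul_div_assoc', div_le_iff₀ (by positivity)]
    nlinarith
  push_cast
  linarith

theorem zetaAbs_neg (t : ℝ) : zetaAbs (-t) = zetaAbs t := by
  rw [zetaAbs, zetaAbs, ← Complex.norm_conj, ← riemannZeta_conj]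
  congr 2
  apply Complex.ext <;> simp

theorem continuous_weightedMoment (k : ℕ) (r : ℝ) :
    Continuous fun t => zetaAbs t ^ k * (1 + |t|) ^ r :=
  (continuous_zetaAbs.pow k).mul ((continuous_const.add continuous_abs).rpow_const fun t =>
    Or.inl (show (1 : ℝ) + |t| ≠ 0 by positivity))

/-- The `k`th power against `(1 + |t|) ^ (-r)` for `r` past the exponent of the moment. -/
theorem integrable_weightedMoment {k : ℕ} {M r : ℝ} (hM : MomentExp k M) (hM0 : 0 ≤ M)
    (hr : M < r) : Integrable fun t => zetaAbs t ^ k * (1 + |t|) ^ (-r) := by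
  obtain ⟨f, hf⟩ : ∃ f : ℝ → ℝ, f = fun t => zetaAbs t ^ k * (1 + |t|) ^ (-r) := ⟨_, rfl⟩
  rw [← hf]
  have hf0 : ∀ t, 0 ≤ f t := fun t => hf ▸ mul_nonneg (pow_nonneg (zetaAbs_nonneg t) k)
    (by positivity)
  have hfc : Continuous f := hf ▸ continuous_weightedMoment k (-r)
  obtain ⟨e, he⟩ : ∃ e, e = (r - M) / 2 := ⟨_, rfl⟩
  have he0 : 0 < e := by rw [he]; linarith
  obtain ⟨C, hC, h⟩ := hM e he0
  obtain ⟨q, hq⟩ : ∃ q, q = (2 : ℝ) ^ (-e) := ⟨_, rfl⟩
  have hq1 : q < 1 := hq ▸ Real.rpow_lt_one_of_one_lt_of_neg one_lt_two (by linarith)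
  have hq0 : 0 < q := hq ▸ Real.rpow_pos_of_pos two_pos _
  have hi : ∀ x y : ℝ, IntervalIntegrable f volume x y := fun x y => hfc.intervalIntegrable x y
  obtain ⟨D, hD⟩ : ∃ D, D = C * (2 : ℝ) ^ (M + e) := ⟨_, rfl⟩
  have hD0 : 0 ≤ D := hD ▸ by positivity
  -- the blocks
  have hblock : ∀ n : ℕ, ∫ t in (2 : ℝ) ^ n..2 ^ (n + 1), f t ≤ D * q ^ n := fun n => by
    obtain ⟨V, hV⟩ : ∃ V : ℝ, V = 2 ^ n := ⟨_, rfl⟩
    have hV1 : 1 ≤ V := hV ▸ one_le_pow₀ one_le_two
    rw [pow_succ, ← hV]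
    have hg : IntervalIntegrable (fun t => V ^ (-r) * zetaAbs t ^ k) volume V (V * 2) :=
      (continuous_const.mul (continuous_zetaAbs.pow k)).intervalIntegrable _ _
    refine (intervalIntegral.integral_mono_on (by linarith) (hi _ _) hg fun t ht => ?_).trans ?_
    · rw [hf, mul_comm (V ^ (-r))]
      refine mul_le_mul_of_nonneg_left (Real.rpow_le_rpow_of_nonpos (by linarith) ?_ (by linarith))
        (pow_nonneg (zetaAbs_nonneg t) k)
      rw [abs_of_nonneg (by linarith [ht.1])]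
      linarith [ht.1]
    rw [intervalIntegral.integral_const_mul]
    refine (mul_le_mul_of_nonneg_left ((intervalIntegral.integral_mono_interval (c := 0)
      (d := V * 2) (by linarith) (by linarith) le_rfl (Eventually.of_forall fun t =>
        pow_nonneg (zetaAbs_nonneg t) k)
      ((continuous_zetaAbs.pow k).intervalIntegrable _ _)).trans (h _ (by linarith)))
      (by positivity)).trans (le_of_eq ?_)
    rw [hD, hq, Real.mul_rpow (by linarith) two_pos.le, ← Real.rpow_mul_natCast two_pos.le,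
      mul_comm (-e), Real.rpow_mul two_pos.le, Real.rpow_natCast, ← hV,
      show -e = -r + (M + e) by rw [he]; ring, Real.rpow_add (show 0 < V by linarith) (-r) (M + e)]
    ring
  obtain ⟨K, hK⟩ : ∃ K, K = (∫ t in (0 : ℝ)..1, f t) + D * (1 - q)⁻¹ := ⟨_, rfl⟩
  have htot : ∀ n : ℕ, ∫ t in (0 : ℝ)..2 ^ n, f t ≤ K := fun n => by
    rw [← intervalIntegral.integral_add_adjacent_intervals (hi 0 1) (hi 1 _), hK]
    refine add_le_add le_rfl ?_
    have e := intervalIntegral.sum_integral_adjacent_intervals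
      (a := fun i : ℕ => (2 : ℝ) ^ i) (n := n) (f := f) fun i _ => hi _ _
    simp only [pow_zero] at e
    rw [← e]
    refine (Finset.sum_le_sum fun i _ => hblock i).trans ?_
    rw [← Finset.mul_sum]
    refine mul_le_mul_of_nonneg_left ?_ hD0
    rw [← tsum_geometric_of_lt_one hq0.le hq1]
    exact (summable_geometric_of_lt_one hq0.le hq1).sum_le_tsum _ fun i _ => by positivity
  have hpos : IntegrableOn f (Set.Ioi 0) := by
    refine integrableOn_Ioi_of_intervalIntegral_norm_bounded K 0 (b := fun n : ℕ => (2 : ℝ) ^ n)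
      (l := atTop) (fun n => (hfc.integrableOn_Icc).mono_set Set.Ioc_subset_Icc_self)
      (tendsto_pow_atTop_atTop_of_one_lt one_lt_two) (Eventually.of_forall fun n => ?_)
    simpa only [Real.norm_of_nonneg (hf0 _)] using htot n
  have hev : ∀ t, f (-t) = f t := fun t => by simp only [hf, zetaAbs_neg, abs_neg]
  have hneg : IntegrableOn f (Set.Iic 0) := by
    rw [integrableOn_Iic_iff_integrableOn_Iio]
    have := hpos.comp_neg
    simp only [Set.neg_Ioi, neg_zero, hev] at this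
    exact this
  have := hneg.union hpos
  rwa [Set.Iic_union_Ioi, integrableOn_univ] at this

end FA.PiltzMoment

end
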